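/-
GAMMA-QB (helper9), part 1: orthonormal bases in a `T2Base`, and the orthonormality principle
over an arbitrary valuation ring.

* `s33q_exists_orthonormal` : in any `T2Base`, a finite-dimensional `W` has a basis `s` consisting
  of Gauss functions whose reductions are linearly independent;
* `s33q_orthonormal` : (for a "pre-base" `(A, resA, Ov, res)`) if the reductions of the Gauss
  functions `B i` are linearly independent and `∑ c i • B i` is a Gauss function, then all `c i` are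
  integral.
-/
import Fermat.Agent.Lib.T2.Core.Base

set_option autoImplicit false
set_option linter.style.haveILetI false

namespace Fermat.Agent.S33Q

open Fermat.Agent.T2

variable {K F k Fb : Type*} [Field K] [Field F] [Algebra K F] [Field k] [CommRing Fb] [Algebra k Fb]

/-- **orthonormal bases**: a finite-dimensional subspace has a basis of Gauss functions with
linearly independent reductions -/
theorem s33q_exists_orthonormal (d : T2Base K F k Fb) (W : Submodule K F)
    [FiniteDimensional K ↥W] :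
    ∃ (r : ℕ) (s : Fin r → F) (hs : ∀ i, s i ∈ d.ball W),
      LinearIndependent k (fun i => d.res ⟨s i, (hs i).2⟩) ∧
        Submodule.span K (Set.range s) = W := by
  classical
  haveI := d.finiteDimensional_resBall W
  set r := Module.finrank k ↥(d.resBall W) with hr
  let b : Module.Basis (Fin r) k ↥(d.resBall W) := Module.finBasis k _
  have hlift : ∀ i, ∃ s, ∃ hs : s ∈ d.ball W, d.res ⟨s, hs.2⟩ = ((b i : ↥(d.resBall W)) : Fb) :=
    fun i => (b i).2
  choose s hs hsb using hlift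
  refine ⟨r, s, hs, ?_, ?_⟩
  · have h1 : (fun i => d.res ⟨s i, (hs i).2⟩) = fun i => ((b i : ↥(d.resBall W)) : Fb) :=
      funext hsb
    rw [h1]
    exact b.linearIndependent.map' (d.resBall W).subtype (Submodule.ker_subtype _)
  set N : Submodule ↥d.A F := Submodule.span ↥d.A (Set.range s) with hN
  have hNW : N ≤ d.ball W := Submodule.span_le.2 (by rintro _ ⟨i, rfl⟩; exact hs i)
  have hball : d.ball W ≤ N := by
    refine d.ball_le_of_res W N hNW (fun f hf => ?_)
    have hfR : d.res ⟨f, hf.2⟩ ∈ d.resBall W := ⟨f, hf, rfl⟩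
    choose a ha using fun i => d.resA_surj (b.repr ⟨_, hfR⟩ i)
    have hmem : ∀ i, ((a i : ↥d.A) : K) • s i ∈ d.Ov := fun i => d.smul_mem (a i) (hs i).2
    refine ⟨∑ i, ((a i : ↥d.A) : K) • s i,
      Submodule.sum_mem _ (fun i _ =>
        Submodule.smul_mem _ (a i) (Submodule.subset_span ⟨i, rfl⟩)), ?_⟩
    rw [d.res_sum' Finset.univ _ hmem]
    have h1 : ∀ i, d.res ⟨((a i : ↥d.A) : K) • s i, hmem i⟩ =
        (b.repr ⟨_, hfR⟩ i) • ((b i : ↥(d.resBall W)) : Fb) := by
      intro i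
      rw [d.res_smul' (a i) (hs i).2, ha i, hsb i]
    rw [Finset.sum_congr rfl (fun i _ => h1 i)]
    have h2 := congrArg (Subtype.val) (b.sum_repr ⟨_, hfR⟩)
    rw [Submodule.coe_sum] at h2
    simpa using h2
  apply le_antisymm
  · rw [Submodule.span_le]
    rintro _ ⟨i, rfl⟩
    exact (hs i).1
  · intro f hf
    rcases eq_or_ne f 0 with rfl | hf0
    · exact zero_mem _
    obtain ⟨c, hc0, hcf, -⟩ := d.normalize f hf0
    have h1 : c • f ∈ N := hball ⟨W.smul_mem c hf, hcf⟩
    have h2 : c • f ∈ Submodule.span K (Set.range s) :=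
      Submodule.span_le_restrictScalars ↥d.A K (Set.range s) h1
    have h3 : f = c⁻¹ • (c • f) := by rw [smul_smul, inv_mul_cancel₀ hc0, one_smul]
    rw [h3]
    exact Submodule.smul_mem _ _ h2

/-- **orthonormality** over an arbitrary valuation ring: if the reductions of the Gauss functions
`B i` are linearly independent and `∑ c i • B i` is a Gauss function, then all `c i` are integral -/
theorem s33q_orthonormal (A : ValuationSubring K) (resA : ↥A →+* k)
    (hker : ∀ a : ↥A, (a : K)⁻¹ ∉ A → resA a = 0)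
    (Ov : Subring F) (res : ↥Ov →+* Fb) (hA : ∀ a : ↥A, algebraMap K F (a : K) ∈ Ov)
    (hres : ∀ a : ↥A, res ⟨algebraMap K F (a : K), hA a⟩ = algebraMap k Fb (resA a))
    {n : ℕ} (B : Fin n → F) (hB : ∀ i, B i ∈ Ov)
    (hind : LinearIndependent k (fun i => res ⟨B i, hB i⟩))
    (c : Fin n → K) (hf : ∑ i, c i • B i ∈ Ov) : ∀ i, c i ∈ A := by
  classical
  by_contra hcon
  push Not at hcon
  obtain ⟨i₁, hi₁⟩ := hcon
  obtain ⟨i₀, -, hmax⟩ := Finset.exists_max_image Finset.univ (fun i => A.valuation (c i))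
    ⟨i₁, Finset.mem_univ _⟩
  have hv1 : 1 < A.valuation (c i₁) := by
    rw [← not_le, A.valuation_le_one_iff]; exact hi₁
  have hv0 : 1 < A.valuation (c i₀) := lt_of_lt_of_le hv1 (hmax i₁ (Finset.mem_univ _))
  have hc0 : c i₀ ≠ 0 := by
    intro h0
    rw [h0, map_zero] at hv0
    exact not_lt.mpr zero_le_one hv0
  have hpos : 0 < A.valuation (c i₀) := lt_trans zero_lt_one hv0
  have hd : ∀ i, c i / c i₀ ∈ A := by
    intro i
    rw [← A.valuation_le_one_iff, map_div₀, div_le_one₀ hpos]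
    exact hmax i (Finset.mem_univ _)
  have he : (c i₀)⁻¹ ∈ A := by
    rw [← A.valuation_le_one_iff, map_inv₀]
    exact inv_le_one_of_one_le₀ hv0.le
  have hei : ((⟨(c i₀)⁻¹, he⟩ : ↥A) : K)⁻¹ ∉ A := by
    show ((c i₀)⁻¹)⁻¹ ∉ A
    rw [inv_inv, ← A.valuation_le_one_iff, not_le]; exact hv0
  have hres0 : resA ⟨(c i₀)⁻¹, he⟩ = 0 := hker _ hei
  have hsmul : ∀ (a : ↥A) {g : F}, g ∈ Ov → ((a : ↥A) : K) • g ∈ Ov := by
    intro a g hg
    rw [Algebra.smul_def]
    exact Ov.mul_mem (hA a) hg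
  have hres_smul : ∀ (a : ↥A) {g : F} (hg : g ∈ Ov),
      res ⟨((a : ↥A) : K) • g, hsmul a hg⟩ = resA a • res ⟨g, hg⟩ := by
    intro a g hg
    have h0 : (⟨((a : ↥A) : K) • g, hsmul a hg⟩ : ↥Ov) =
        ⟨algebraMap K F (a : K), hA a⟩ * ⟨g, hg⟩ := by
      apply Subtype.ext
      show ((a : ↥A) : K) • g = algebraMap K F (a : K) * g
      rw [Algebra.smul_def]
    rw [h0, map_mul, hres a, Algebra.smul_def]
  -- the scaled combination
  have hsum : (c i₀)⁻¹ • ∑ i, c i • B i = ∑ i, (c i / c i₀) • B i := by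
    rw [Finset.smul_sum]
    refine Finset.sum_congr rfl fun i _ => ?_
    rw [smul_smul, inv_mul_eq_div]
  have hmem : ∀ i, (c i / c i₀) • B i ∈ Ov := fun i => hsmul ⟨_, hd i⟩ (hB i)
  have hsumO : ∑ i, (c i / c i₀) • B i ∈ Ov := Ov.sum_mem fun i _ => hmem i
  have h1 : res ⟨∑ i, (c i / c i₀) • B i, hsumO⟩ = 0 := by
    have h2 : (⟨∑ i, (c i / c i₀) • B i, hsumO⟩ : ↥Ov) =
        ⟨(((⟨(c i₀)⁻¹, he⟩ : ↥A) : ↥A) : K) • ∑ i, c i • B i, hsmul ⟨_, he⟩ hf⟩ :=
      Subtype.ext hsum.symm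
    rw [h2, hres_smul ⟨_, he⟩ hf, hres0, zero_smul]
  have h3 : res ⟨∑ i, (c i / c i₀) • B i, hsumO⟩ =
      ∑ i, resA ⟨c i / c i₀, hd i⟩ • res ⟨B i, hB i⟩ := by
    have h4 : (⟨∑ i, (c i / c i₀) • B i, hsumO⟩ : ↥Ov) =
        ∑ i, (⟨(c i / c i₀) • B i, hmem i⟩ : ↥Ov) := by
      apply Subtype.ext
      rw [AddSubmonoidClass.coe_finsetSum]
    rw [h4, map_sum]
    refine Finset.sum_congr rfl fun i _ => ?_
    exact hres_smul ⟨_, hd i⟩ (hB i)
  rw [h3] at h1
  have h5 := Fintype.linearIndependent_iff.mp hind _ h1 i₀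
  have h6 : (⟨c i₀ / c i₀, hd i₀⟩ : ↥A) = 1 := Subtype.ext (div_self hc0)
  rw [h6, map_one] at h5
  exact one_ne_zero h5

end Fermat.Agent.S33Q
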