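/-
GAMMA-QB (helper9), part 5: transfer of a `T2Setup` along a "level".

Abstract setting: two bases `d₀ : T2Base K₀ F₀ k Fb` (a DVR level) and `d : T2Base K F k Fb` (the
`ℚ̄`-level) with the SAME residue data, and a semilinear embedding `Φ : F₀ → F` over `j : K₀ → K`
compatible with the Gauss rings, the reductions and integrality over the chart rings
(`S33qLevel d₀ d`).

* `S33qLevel.ball_map`, `resBall_map_le`, `mem_tbLbar_iff`, `coeff_mem` (orthonormality),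
  `linearIndependent_map`, `map_evalA`;
* `S33qLevel.fin` : **finiteness of the chart ring goes up** (`T2Fin d₀ x₀ e → T2Fin d (Φ x₀) e`) as
  soon as `dim_K L̄(a,0) ≤ dim_{K₀} L̄₀(a,0)`: an orthonormal basis of `L̄₀(a,0)` at the level `K₀`
  stays an orthonormal basis over `(K, A)`, so `B₁ = A[x] · Φ(B₁⁰)` — no noetherian hypothesis
  on `A`;
* `S33qLevel.setup` : the `T2Setup` on `d` with chart `Φ x₀`, the same reduction data (`ev`, `e`),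
  given (Int) on `d` and Riemann–Roch over `K`.
-/
import Fermat.Agent.Lib.S33.Qb.Ortho
import Fermat.Agent.Lib.T2.Core.Sing
import Fermat.Agent.Lib.T2.Core.SemiFin

set_option autoImplicit false
set_option linter.unusedSectionVars false
set_option linter.unusedVariables false
set_option linter.style.haveILetI false

open Fermat.Agent.T1 Fermat.Agent.T2

noncomputable section

namespace Fermat.Agent.S33Q

variable {K₀ F₀ K F k Fb : Type*} [Field K₀] [Field F₀] [Algebra K₀ F₀] [Field K] [Field F]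
  [Algebra K F] [Field k] [CommRing Fb] [Algebra k Fb]

/-- a level: a semilinear embedding `(K₀, F₀) → (K, F)` compatible with the bases `d₀`, `d` (which
have the same residue data) and with integrality over the chart rings -/
structure S33qLevel (d₀ : T2Base K₀ F₀ k Fb) (d : T2Base K F k Fb) where
  /-- the embedding of the constants -/
  j : K₀ →+* K
  /-- the embedding of the function fields -/
  Φ : F₀ →+* F
  Φ_smul : ∀ (c : K₀) (f : F₀), Φ (c • f) = j c • Φ f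
  mapA : ∀ a : K₀, a ∈ d₀.A → j a ∈ d.A
  resA : ∀ (a : K₀) (ha : a ∈ d₀.A), d.resA ⟨j a, mapA a ha⟩ = d₀.resA ⟨a, ha⟩
  mapOv : ∀ f : F₀, f ∈ d₀.Ov → Φ f ∈ d.Ov
  res : ∀ (f : F₀) (hf : f ∈ d₀.Ov), d.res ⟨Φ f, mapOv f hf⟩ = d₀.res ⟨f, hf⟩
  int : ∀ y u : F₀, IsIntegral ↥(Algebra.adjoin K₀ {y}) u ↔
    IsIntegral ↥(Algebra.adjoin K {Φ y}) (Φ u)

namespace S33qLevel

variable {d₀ : T2Base K₀ F₀ k Fb} {d : T2Base K F k Fb} (L : S33qLevel d₀ d)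

theorem Φ_algebraMap (c : K₀) : L.Φ (algebraMap K₀ F₀ c) = algebraMap K F (L.j c) := by
  have h := L.Φ_smul c 1
  rwa [Algebra.smul_def, mul_one, map_one, Algebra.smul_def, mul_one] at h

/-- `A₀ → A` -/
def ιA : ↥d₀.A →+* ↥d.A :=
  (L.j.comp d₀.A.subtype).codRestrict d.A.toSubring (fun a => L.mapA a a.2)

@[simp] theorem coe_ιA (a : ↥d₀.A) : ((L.ιA a : ↥d.A) : K) = L.j (a : K₀) := rfl

theorem inv_mem {y : F₀} (h : y⁻¹ ∈ d₀.Ov) : (L.Φ y)⁻¹ ∈ d.Ov := by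
  rw [← map_inv₀]
  exact L.mapOv _ h

theorem res_inv {y : F₀} (h : y⁻¹ ∈ d₀.Ov) :
    d.res ⟨(L.Φ y)⁻¹, L.inv_mem h⟩ = d₀.res ⟨y⁻¹, h⟩ := by
  rw [d.res_congr (L.inv_mem h) (map_inv₀ L.Φ y).symm]
  exact L.res _ h

/-- `Φ` commutes with the evaluation of polynomials with integral coefficients -/
theorem map_evalA (y : F₀) (P : Polynomial ↥d₀.A) :
    L.Φ (d₀.evalA y P) = d.evalA (L.Φ y) (P.map L.ιA) := by
  unfold T2Base.evalA
  rw [Polynomial.hom_eval₂, Polynomial.eval₂_map]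
  congr 1
  ext a
  show L.Φ (algebraMap K₀ F₀ (a : K₀)) = algebraMap K F ((L.ιA a : ↥d.A) : K)
  rw [L.Φ_algebraMap, coe_ιA]

theorem ball_map {y f : F₀} (hf : f ∈ d₀.ball (t2Int y)) : L.Φ f ∈ d.ball (t2Int (L.Φ y)) :=
  ⟨(L.int y f).mp hf.1, L.mapOv f hf.2⟩

theorem resBall_map_le (y : F₀) : d₀.resBall (t2Int y) ≤ d.resBall (t2Int (L.Φ y)) := by
  rintro _ ⟨s, hs, rfl⟩
  exact ⟨L.Φ s, L.ball_map hs, L.res s hs.2⟩

theorem mem_tbLbar_iff (y t : F₀) (a b : ℕ) :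
    t ∈ tbLbar (K := K₀) y a b ↔ L.Φ t ∈ tbLbar (K := K) (L.Φ y) a b := by
  rw [mem_tbLbar, mem_tbLbar, L.int y, L.int y⁻¹, map_mul, map_mul, map_pow, map_pow, map_inv₀]

/-- non-units of `A` reduce to zero -/
theorem resA_eq_zero_of_inv_notMem (d : T2Base K F k Fb) (a : ↥d.A) (ha : ((a : ↥d.A) : K)⁻¹ ∉ d.A) :
    d.resA a = 0 := by
  rw [d.resA_eq_zero_iff, IsLocalRing.mem_maximalIdeal, mem_nonunits_iff]
  intro hu
  apply ha
  obtain ⟨b, hb⟩ := isUnit_iff_exists_inv.mp hu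
  have h1 : ((a : ↥d.A) : K) * (b : K) = 1 := by
    have := congrArg Subtype.val hb
    simpa using this
  have h2 : ((a : ↥d.A) : K)⁻¹ = (b : K) := by
    rw [inv_eq_iff_eq_inv]
    exact eq_inv_of_mul_eq_one_left h1
  rw [h2]
  exact b.2

/-- **orthonormality over `(K, A)`** of families coming from the level -/
theorem coeff_mem {r : ℕ} (b : Fin r → F₀) (hb : ∀ i, b i ∈ d₀.Ov)
    (hind : LinearIndependent k (fun i => d₀.res ⟨b i, hb i⟩))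
    (c : Fin r → K) (hf : ∑ i, c i • L.Φ (b i) ∈ d.Ov) : ∀ i, c i ∈ d.A := by
  refine s33q_orthonormal d.A d.resA (resA_eq_zero_of_inv_notMem d) d.Ov d.res d.algebraMap_mem
    d.res_algebraMap (fun i => L.Φ (b i)) (fun i => L.mapOv _ (hb i)) ?_ c hf
  have : (fun i => d.res ⟨L.Φ (b i), L.mapOv _ (hb i)⟩) = fun i => d₀.res ⟨b i, hb i⟩ :=
    funext fun i => L.res _ (hb i)
  rw [this]
  exact hind

theorem linearIndependent_map {r : ℕ} (b : Fin r → F₀) (hb : ∀ i, b i ∈ d₀.Ov)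
    (hind : LinearIndependent k (fun i => d₀.res ⟨b i, hb i⟩)) :
    LinearIndependent K (fun i => L.Φ (b i)) := by
  refine d.linearIndependent_of_res _ (fun i => L.mapOv _ (hb i)) ?_
  have : (fun i => d.res ⟨L.Φ (b i), L.mapOv _ (hb i)⟩) = fun i => d₀.res ⟨b i, hb i⟩ :=
    funext fun i => L.res _ (hb i)
  rw [this]
  exact hind

theorem evalA_sum (d : T2Base K F k Fb) (x : F) {ι : Type*} (t : Finset ι)
    (p : ι → Polynomial ↥d.A) : d.evalA x (∑ i ∈ t, p i) = ∑ i ∈ t, d.evalA x (p i) := by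
  unfold T2Base.evalA
  exact Polynomial.eval₂_finsetSum _ _ _ _

theorem evalA_C_mul (d : T2Base K F k Fb) (x : F) (a : ↥d.A) (p : Polynomial ↥d.A) :
    d.evalA x (Polynomial.C a * p) = ((a : ↥d.A) : K) • d.evalA x p := by
  unfold T2Base.evalA
  rw [Polynomial.eval₂_mul, Polynomial.eval₂_C, Algebra.smul_def]
  rfl

/-- **finiteness of the chart ring goes up** -/
theorem fin {x₀ : F₀} (hx0 : x₀ ≠ 0) {e : ℕ}
    (hfd₀ : ∀ a : ℕ, FiniteDimensional K₀ ↥(tbLbar (K := K₀) x₀ a 0))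
    (hfd : ∀ a : ℕ, FiniteDimensional K ↥(tbLbar (K := K) (L.Φ x₀) a 0))
    (hdim : ∀ a : ℕ, Module.finrank K ↥(tbLbar (K := K) (L.Φ x₀) a 0) ≤
      Module.finrank K₀ ↥(tbLbar (K := K₀) x₀ a 0))
    (hfin : T2Fin d₀ x₀ e) : T2Fin d (L.Φ x₀) e := by
  classical
  obtain ⟨S₀, hS₀, hrep⟩ := hfin
  refine ⟨S₀.image L.Φ, ?_, ?_⟩
  · intro s hs
    obtain ⟨s', hs', rfl⟩ := Finset.mem_image.mp hs
    obtain ⟨h1, h2⟩ := hS₀ s' hs'
    refine ⟨L.ball_map h1, ?_⟩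
    have h3 := (L.int x₀⁻¹ (x₀⁻¹ ^ e * s')).mp h2
    rw [map_mul, map_pow, map_inv₀] at h3
    exact h3
  · intro f hf
    have hX0 : L.Φ x₀ ≠ 0 := (map_ne_zero L.Φ).mpr hx0
    obtain ⟨a, ha⟩ := t2_exists_inv_pow_mul_mem_t2Int (K := K) hX0 hf.1
    have hfW : f ∈ tbLbar (K := K) (L.Φ x₀) a 0 := by
      rw [mem_tbLbar, pow_zero, one_mul]
      exact ⟨hf.1, ha⟩
    haveI := hfd₀ a
    haveI := hfd a
    obtain ⟨r, s, hs, hind, hspan⟩ := s33q_exists_orthonormal d₀ (tbLbar (K := K₀) x₀ a 0)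
    have hli₀ : LinearIndependent K₀ s :=
      d₀.linearIndependent_of_res s (fun i => (hs i).2) hind
    have hr : Module.finrank K₀ ↥(tbLbar (K := K₀) x₀ a 0) = r := by
      rw [← hspan, finrank_span_eq_card hli₀, Fintype.card_fin]
    have hli : LinearIndependent K (fun i => L.Φ (s i)) :=
      L.linearIndependent_map s (fun i => (hs i).2) hind
    have hmemW : ∀ i, L.Φ (s i) ∈ tbLbar (K := K) (L.Φ x₀) a 0 :=
      fun i => (L.mem_tbLbar_iff _ _ _ _).mp (hs i).1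
    have hspanW : Submodule.span K (Set.range fun i => L.Φ (s i)) =
        tbLbar (K := K) (L.Φ x₀) a 0 := by
      apply Submodule.eq_of_le_of_finrank_le
      · rw [Submodule.span_le]
        rintro _ ⟨i, rfl⟩
        exact hmemW i
      · rw [finrank_span_eq_card hli, Fintype.card_fin, ← hr]
        exact hdim a
    have hfspan : f ∈ Submodule.span K (Set.range fun i => L.Φ (s i)) := by
      rw [hspanW]; exact hfW
    obtain ⟨c, hc⟩ := (Submodule.mem_span_range_iff_exists_fun K).mp hfspan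
    have hcA : ∀ i, c i ∈ d.A :=
      L.coeff_mem s (fun i => (hs i).2) hind c (by rw [hc]; exact hf.2)
    have hsB : ∀ i, s i ∈ d₀.ball (t2Int x₀) := by
      intro i
      have h1 := (hs i).1
      rw [mem_tbLbar, pow_zero, one_mul] at h1
      exact ⟨h1.1, (hs i).2⟩
    choose P hP using fun i => hrep (s i) (hsB i)
    set Q : F₀ → Polynomial ↥d.A :=
      fun s' => ∑ i, Polynomial.C (⟨c i, hcA i⟩ : ↥d.A) * (P i s').map L.ιA with hQ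
    refine ⟨fun t => if ht : ∃ s' ∈ S₀, L.Φ s' = t then Q ht.choose else 0, ?_⟩
    rw [Finset.sum_image (fun a _ b _ hab => L.Φ.injective hab)]
    have key : ∀ s' ∈ S₀, (if ht : ∃ s'' ∈ S₀, L.Φ s'' = L.Φ s' then Q ht.choose else 0) = Q s' := by
      intro s' hs'
      have hex : ∃ s'' ∈ S₀, L.Φ s'' = L.Φ s' := ⟨s', hs', rfl⟩
      rw [dif_pos hex]
      congr 1
      exact L.Φ.injective hex.choose_spec.2
    have hsum : ∑ s' ∈ S₀, d.evalA (L.Φ x₀)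
        ((fun t => if ht : ∃ s'' ∈ S₀, L.Φ s'' = t then Q ht.choose else 0) (L.Φ s')) * L.Φ s' =
        ∑ s' ∈ S₀, d.evalA (L.Φ x₀) (Q s') * L.Φ s' :=
      Finset.sum_congr rfl (fun s' hs' => by
        show d.evalA (L.Φ x₀) (if ht : ∃ s'' ∈ S₀, L.Φ s'' = L.Φ s' then Q ht.choose else 0) *
          L.Φ s' = _
        rw [key s' hs'])
    rw [hsum]
    have hQe : ∀ s', d.evalA (L.Φ x₀) (Q s') = ∑ i, c i • L.Φ (d₀.evalA x₀ (P i s')) := by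
      intro s'
      rw [hQ]
      simp only
      rw [evalA_sum]
      refine Finset.sum_congr rfl fun i _ => ?_
      rw [evalA_C_mul, L.map_evalA]
    rw [← hc]
    calc ∑ i, c i • L.Φ (s i)
        = ∑ i, c i • ∑ s' ∈ S₀, L.Φ (d₀.evalA x₀ (P i s')) * L.Φ s' := by
          refine Finset.sum_congr rfl fun i _ => ?_
          congr 1
          conv_lhs => rw [hP i]
          rw [map_sum]
          exact Finset.sum_congr rfl fun s' _ => map_mul _ _ _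
      _ = ∑ s' ∈ S₀, ∑ i, c i • (L.Φ (d₀.evalA x₀ (P i s')) * L.Φ s') := by
          rw [Finset.sum_comm]
          refine Finset.sum_congr rfl fun i _ => ?_
          rw [Finset.smul_sum]
      _ = ∑ s' ∈ S₀, d.evalA (L.Φ x₀) (Q s') * L.Φ s' := by
          refine Finset.sum_congr rfl fun s' _ => ?_
          rw [hQe, Finset.sum_mul]
          exact Finset.sum_congr rfl fun i _ => (smul_mul_assoc _ _ _).symm

/-! ### Transport along equalities of the reductions of the chart -/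

theorem isIntegral_adjoin_of_eq {y z : Fb} (h : y = z) {t : Fb}
    (ht : IsIntegral ↥(Algebra.adjoin k {y}) t) : IsIntegral ↥(Algebra.adjoin k {z}) t := by
  subst h
  exact ht

theorem finLt_of_eq {xb xb' xib xib' : Fb} (h1 : xb = xb') (h2 : xib = xib') (a : ℕ)
    (h : FiniteDimensional k ↥(t2Lt (k := k) xb' xib' a)) :
    FiniteDimensional k ↥(t2Lt (k := k) xb xib a) := by
  subst h1; subst h2; exact h

theorem exb_of_eq {xb xb' xib xib' : Fb} (h1 : xb = xb') (h2 : xib = xib')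
    (h : ∀ t : Fb, IsIntegral ↥(Algebra.adjoin k {xb'}) t →
      ∃ a : ℕ, IsIntegral ↥(Algebra.adjoin k {xib'}) (xib' ^ a * t)) :
    ∀ t : Fb, IsIntegral ↥(Algebra.adjoin k {xb}) t →
      ∃ a : ℕ, IsIntegral ↥(Algebra.adjoin k {xib}) (xib ^ a * t) := by
  subst h1; subst h2; exact h

theorem t2R_of_eq {xb xb' : Fb} (h : xb = xb') : t2R (k := k) xb ≤ t2R (k := k) xb' := by
  subst h; exact le_rfl

section Fields

variable {σ : Type*} [Fintype σ] (su₀ : T2Setup d₀ σ)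

theorem setup_int1
    (hint1 : ∀ (f : F) (hf : f ∈ d.Ov), f ∈ t2Int (K := K) (L.Φ su₀.x) →
      IsIntegral ↥(Algebra.adjoin k {su₀.xb}) (d.res ⟨f, hf⟩))
    (f : F) (hf : f ∈ d.Ov) (hfi : f ∈ t2Int (K := K) (L.Φ su₀.x)) :
    IsIntegral ↥(Algebra.adjoin k {d.res ⟨L.Φ su₀.x, L.mapOv _ su₀.hx⟩}) (d.res ⟨f, hf⟩) :=
  isIntegral_adjoin_of_eq (L.res _ su₀.hx).symm (hint1 f hf hfi)

theorem setup_int2
    (hint2 : ∀ (f : F) (hf : f ∈ d.Ov), f ∈ t2Int (K := K) (L.Φ su₀.x)⁻¹ →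
      IsIntegral ↥(Algebra.adjoin k {su₀.xib}) (d.res ⟨f, hf⟩))
    (f : F) (hf : f ∈ d.Ov) (hfi : f ∈ t2Int (K := K) (L.Φ su₀.x)⁻¹) :
    IsIntegral ↥(Algebra.adjoin k {d.res ⟨(L.Φ su₀.x)⁻¹, L.inv_mem su₀.hxi⟩}) (d.res ⟨f, hf⟩) :=
  isIntegral_adjoin_of_eq (L.res_inv su₀.hxi).symm (hint2 f hf hfi)

theorem setup_sm2 (t : Fb)
    (ht : IsIntegral ↥(Algebra.adjoin k {d.res ⟨(L.Φ su₀.x)⁻¹, L.inv_mem su₀.hxi⟩}) t) :
    t ∈ d.resBall (t2Int (L.Φ su₀.x)⁻¹) := by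
  have h1 : t ∈ d₀.resBall (t2Int su₀.x⁻¹) :=
    su₀.sm2 t (isIntegral_adjoin_of_eq (L.res_inv su₀.hxi) ht)
  have h2 := L.resBall_map_le su₀.x⁻¹ h1
  rwa [map_inv₀] at h2

theorem setup_exb : ∀ t : Fb,
    IsIntegral ↥(Algebra.adjoin k {d.res ⟨L.Φ su₀.x, L.mapOv _ su₀.hx⟩}) t →
    ∃ a : ℕ, IsIntegral ↥(Algebra.adjoin k {d.res ⟨(L.Φ su₀.x)⁻¹, L.inv_mem su₀.hxi⟩})
      (d.res ⟨(L.Φ su₀.x)⁻¹, L.inv_mem su₀.hxi⟩ ^ a * t) :=
  exb_of_eq (L.res _ su₀.hx) (L.res_inv su₀.hxi) su₀.exb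

theorem setup_finLt (a : ℕ) : FiniteDimensional k ↥(t2Lt (k := k)
    (d.res ⟨L.Φ su₀.x, L.mapOv _ su₀.hx⟩) (d.res ⟨(L.Φ su₀.x)⁻¹, L.inv_mem su₀.hxi⟩) a) :=
  finLt_of_eq (L.res _ su₀.hx) (L.res_inv su₀.hxi) a (su₀.finLt a)

/-- the evaluation at the nodes, transported -/
def setupEv : ↥(t2R (k := k) (d.res ⟨L.Φ su₀.x, L.mapOv _ su₀.hx⟩)) →ₐ[k] (σ → k) :=
  su₀.ev.comp (Subalgebra.inclusion (t2R_of_eq (L.res _ su₀.hx)))

theorem setupEv_apply (r : ↥(t2R (k := k) (d.res ⟨L.Φ su₀.x, L.mapOv _ su₀.hx⟩))) :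
    L.setupEv su₀ r = su₀.ev (Subalgebra.inclusion (t2R_of_eq (L.res _ su₀.hx)) r) := rfl

theorem setup_hJ (r : ↥(t2R (k := k) (d.res ⟨L.Φ su₀.x, L.mapOv _ su₀.hx⟩)))
    (hr : L.setupEv su₀ r = 0) : (r : Fb) ∈ d.resBall (t2Int (L.Φ su₀.x)) := by
  rw [setupEv_apply] at hr
  have h1 := su₀.hJ _ hr
  rw [Subalgebra.coe_inclusion] at h1
  exact L.resBall_map_le su₀.x h1

end Fields

/-- **the transferred setup** -/
def setup {σ : Type*} [Fintype σ] (su₀ : T2Setup d₀ σ)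
    (ℓ : ℕ) (hℓ : ℓ.Prime) (hℓA : ((ℓ : ℕ) : K) ∈ d.A.nonunits) (hℓ0 : ((ℓ : ℕ) : K) ≠ 0)
    (hint1 : ∀ (f : F) (hf : f ∈ d.Ov), f ∈ t2Int (K := K) (L.Φ su₀.x) →
      IsIntegral ↥(Algebra.adjoin k {su₀.xb}) (d.res ⟨f, hf⟩))
    (hint2 : ∀ (f : F) (hf : f ∈ d.Ov), f ∈ t2Int (K := K) (L.Φ su₀.x)⁻¹ →
      IsIntegral ↥(Algebra.adjoin k {su₀.xib}) (d.res ⟨f, hf⟩))
    (hfd₀ : ∀ a : ℕ, FiniteDimensional K₀ ↥(tbLbar (K := K₀) su₀.x a 0))
    (hdim : ∀ a : ℕ, Module.finrank K ↥(tbLbar (K := K) (L.Φ su₀.x) a 0) ≤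
      Module.finrank K₀ ↥(tbLbar (K := K₀) su₀.x a 0))
    (n : ℕ) (c : ℤ) (a0 : ℕ)
    (finL0 : ∀ a b : ℕ, FiniteDimensional K ↥(tbLbar (K := K) (L.Φ su₀.x) a b))
    (dim0 : ∀ a b : ℕ, a0 ≤ a + b →
      (Module.finrank K ↥(tbLbar (K := K) (L.Φ su₀.x) a b) : ℤ) = ((a + b : ℕ) : ℤ) * n + c) :
    T2Setup d σ where
  ℓ := ℓ
  hℓ := hℓ
  hℓA := hℓA
  hℓ0 := hℓ0
  m := 1
  hm := Nat.coprime_one_left ℓ
  x := L.Φ su₀.x
  hx0 := (map_ne_zero L.Φ).mpr su₀.hx0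
  hx := L.mapOv _ su₀.hx
  hxi := L.inv_mem su₀.hxi
  int1 := L.setup_int1 su₀ hint1
  int2 := L.setup_int2 su₀ hint2
  e := su₀.e
  fin1 := L.fin su₀.hx0 hfd₀ (fun a => finL0 a 0) hdim su₀.fin1
  ex2 := fun f hf => t2_exists_pow_mul_mem_t2Int ((map_ne_zero L.Φ).mpr su₀.hx0) hf
  sm2 := L.setup_sm2 su₀
  exb := L.setup_exb su₀
  finLt := L.setup_finLt su₀
  ev := L.setupEv su₀
  hJ := L.setup_hJ su₀
  n := n
  c := c
  a0 := a0
  finL0 := finL0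
  dim0 := dim0

section SetupLemmas

variable {σ : Type*} [Fintype σ] (su₀ : T2Setup d₀ σ)
    (ℓ : ℕ) (hℓ : ℓ.Prime) (hℓA : ((ℓ : ℕ) : K) ∈ d.A.nonunits) (hℓ0 : ((ℓ : ℕ) : K) ≠ 0)
    (hint1 : ∀ (f : F) (hf : f ∈ d.Ov), f ∈ t2Int (K := K) (L.Φ su₀.x) →
      IsIntegral ↥(Algebra.adjoin k {su₀.xb}) (d.res ⟨f, hf⟩))
    (hint2 : ∀ (f : F) (hf : f ∈ d.Ov), f ∈ t2Int (K := K) (L.Φ su₀.x)⁻¹ →
      IsIntegral ↥(Algebra.adjoin k {su₀.xib}) (d.res ⟨f, hf⟩))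
    (hfd₀ : ∀ a : ℕ, FiniteDimensional K₀ ↥(tbLbar (K := K₀) su₀.x a 0))
    (hdim : ∀ a : ℕ, Module.finrank K ↥(tbLbar (K := K) (L.Φ su₀.x) a 0) ≤
      Module.finrank K₀ ↥(tbLbar (K := K₀) su₀.x a 0))
    (n : ℕ) (c : ℤ) (a0 : ℕ)
    (finL0 : ∀ a b : ℕ, FiniteDimensional K ↥(tbLbar (K := K) (L.Φ su₀.x) a b))
    (dim0 : ∀ a b : ℕ, a0 ≤ a + b →
      (Module.finrank K ↥(tbLbar (K := K) (L.Φ su₀.x) a b) : ℤ) = ((a + b : ℕ) : ℤ) * n + c)

theorem setup_x : (L.setup su₀ ℓ hℓ hℓA hℓ0 hint1 hint2 hfd₀ hdim n c a0 finL0 dim0).x =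
    L.Φ su₀.x := rfl

theorem setup_xb : (L.setup su₀ ℓ hℓ hℓA hℓ0 hint1 hint2 hfd₀ hdim n c a0 finL0 dim0).xb =
    su₀.xb := L.res _ su₀.hx

theorem setup_xib : (L.setup su₀ ℓ hℓ hℓA hℓ0 hint1 hint2 hfd₀ hdim n c a0 finL0 dim0).xib =
    su₀.xib := L.res_inv su₀.hxi

theorem setup_ev : (L.setup su₀ ℓ hℓ hℓA hℓ0 hint1 hint2 hfd₀ hdim n c a0 finL0 dim0).ev =
    L.setupEv su₀ := rfl

end SetupLemmas

end S33qLevel

end Fermat.Agent.S33Q
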