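/-
GAMMA-QB (helper9), part 2: the two Gauss valuations of `F = ℚ̄(X₀(N' p))` over `(ℚ̄, A = 𝔓)`:
definitions and the dictionary with the DVR levels.

`p = 𝔓.p ∤ N'`, `w = t2w ℚ̄ N' p h` the Atkin–Lehner involution.
* `s33qOv 𝔓 N' h = {f | f and w f are Gauss over (ℚ̄, A)}`;
* `s33q_phi_mem` / `s33q_gauss_descend` : `Φ_H f ∈ 𝒪 ↔ f ∈ 𝒪_H` (`𝒪_H` the Gauss ring of
  `t2iBase2Fix 𝔓 H N' h`);
* `s33q_exists_level` : finitely many elements of `F` come from a common level;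
* `s33qRes : 𝒪 → F̄' × F̄'`, `res f = (ρ f, ρ (w f))`, with `s33qRes_phi` (compatibility with the
  levels).
-/
import Fermat.Agent.Lib.T2.Inst.LevelH
import Fermat.Agent.Lib.T1.Inst.BaseQ
import Fermat.Agent.Lib.T2.Gal.Sigma

set_option autoImplicit false
set_option linter.unusedSectionVars false
set_option linter.unusedVariables false
set_option linter.style.haveILetI false
set_option synthInstance.maxHeartbeats 400000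

open HahnSeries ModularCurve Fermat.Agent.T1 Fermat.Agent.T2 Fermat.Agent.TW Fermat.Agent.S05Lib
  Fermat.Agent.S24Lib

noncomputable section

namespace Fermat.Agent.S33Q

local notation "Qb" => AlgebraicClosure ℚ

attribute [local instance] t2i_dvr t2i_isAlgClosed t2i_charP t2i_fact

variable (𝔓 : FFPlace) (N' : ℕ) [NeZero N'] (h : ¬ 𝔓.p ∣ N')

/-- the Atkin–Lehner involution over `ℚ̄`, as a ring homomorphism -/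
def s33qW : ↥(modularFunctionFieldBar (N' * 𝔓.p)) →+* ↥(modularFunctionFieldBar (N' * 𝔓.p)) :=
  ((t2w Qb N' 𝔓.p h : ↥(modularFunctionFieldBar (N' * 𝔓.p)) ≃ₐ[Qb]
    ↥(modularFunctionFieldBar (N' * 𝔓.p))) : ↥(modularFunctionFieldBar (N' * 𝔓.p)) →+*
    ↥(modularFunctionFieldBar (N' * 𝔓.p)))

theorem s33qW_apply (f : ↥(modularFunctionFieldBar (N' * 𝔓.p))) :
    s33qW 𝔓 N' h f = t2w Qb N' 𝔓.p h f := rfl

theorem s33q_t2w_smul (c : Qb) (g : ↥(modularFunctionFieldBar (N' * 𝔓.p))) :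
    t2w Qb N' 𝔓.p h (c • g) = c • t2w Qb N' 𝔓.p h g := by
  rw [Algebra.smul_def, Algebra.smul_def, map_mul, AlgEquiv.commutes]

/-- the Gauss ring of the two valuations -/
def s33qOv : Subring ↥(modularFunctionFieldBar (N' * 𝔓.p)) :=
  tbOvQ 𝔓 (N' * 𝔓.p) ⊓ (tbOvQ 𝔓 (N' * 𝔓.p)).comap (s33qW 𝔓 N' h)

theorem mem_s33qOv (f : ↥(modularFunctionFieldBar (N' * 𝔓.p))) :
    f ∈ s33qOv 𝔓 N' h ↔
      TbGauss 𝔓.P (IsLocalRing.residue ↥𝔓.P) (f : LaurentSeries Qb) ∧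
      TbGauss 𝔓.P (IsLocalRing.residue ↥𝔓.P)
        ((t2w Qb N' 𝔓.p h f : ↥(modularFunctionFieldBar (N' * 𝔓.p))) : LaurentSeries Qb) :=
  Iff.rfl

variable (H : Subgroup 𝔓.I) [H.FiniteIndex]

/-- functions which are Gauss at level `H` are Gauss over `ℚ̄` -/
theorem s33q_phi_mem {f : ↥(tbLevF 𝔓 (N' * 𝔓.p) H)} (hf : f ∈ (t2iBase2Fix 𝔓 H N' h).Ov) :
    tbPhiF 𝔓 (N' * 𝔓.p) H f ∈ s33qOv 𝔓 N' h := by
  obtain ⟨h1, h2⟩ := (mem_t2iBase2Fix_Ov 𝔓 H N' h f).mp hf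
  refine ⟨tbPhi_gauss 𝔓 H h1, ?_⟩
  show TbGauss 𝔓.P _ ((t2w Qb N' 𝔓.p h (tbPhiF 𝔓 (N' * 𝔓.p) H f) :
    ↥(modularFunctionFieldBar (N' * 𝔓.p))) : LaurentSeries Qb)
  rw [← tbPhiF_t2wLev]
  exact tbPhi_gauss 𝔓 H h2

/-- the first residue, compatibility with the levels -/
theorem s33q_rho_phi_fst {f : ↥(tbLevF 𝔓 (N' * 𝔓.p) H)} (hf : f ∈ (t2iBase2Fix 𝔓 H N' h).Ov) :
    tbRhoFun 𝔓.P (IsLocalRing.residue ↥𝔓.P)
      ((tbPhiF 𝔓 (N' * 𝔓.p) H f : ↥(modularFunctionFieldBar (N' * 𝔓.p))) : LaurentSeries Qb) =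
      ((((t2iBase2Fix 𝔓 H N' h).res ⟨f, hf⟩).1 : ↥(tbBarF 𝔓 N')) :
        LaurentSeries (IsLocalRing.ResidueField ↥𝔓.P)) := by
  obtain ⟨h1, h2⟩ := (mem_t2iBase2Fix_Ov 𝔓 H N' h f).mp hf
  rw [coe_t2iBase2Fix_res_fst, coe_tbPhiF, tbPhi_rho 𝔓 H h1]

/-- the second residue, compatibility with the levels -/
theorem s33q_rho_phi_snd {f : ↥(tbLevF 𝔓 (N' * 𝔓.p) H)} (hf : f ∈ (t2iBase2Fix 𝔓 H N' h).Ov) :
    tbRhoFun 𝔓.P (IsLocalRing.residue ↥𝔓.P)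
      ((t2w Qb N' 𝔓.p h (tbPhiF 𝔓 (N' * 𝔓.p) H f) :
        ↥(modularFunctionFieldBar (N' * 𝔓.p))) : LaurentSeries Qb) =
      ((((t2iBase2Fix 𝔓 H N' h).res ⟨f, hf⟩).2 : ↥(tbBarF 𝔓 N')) :
        LaurentSeries (IsLocalRing.ResidueField ↥𝔓.P)) := by
  obtain ⟨h1, h2⟩ := (mem_t2iBase2Fix_Ov 𝔓 H N' h f).mp hf
  rw [coe_t2iBase2Fix_res_snd, ← tbPhiF_t2wLev, coe_tbPhiF, tbPhi_rho 𝔓 H h2]


/-- scalar multiples, first residue -/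
theorem s33q_rho_smul_eq_zero {c : ↥(tbFix 𝔓 H)} (hcO : c ∈ tbFixO 𝔓 H)
    (hres0 : tbFixRes 𝔓 H ⟨c, hcO⟩ = 0) {g : ↥(modularFunctionFieldBar (N' * 𝔓.p))}
    (hg : TbGauss 𝔓.P (IsLocalRing.residue ↥𝔓.P) (g : LaurentSeries Qb)) :
    tbRhoFun 𝔓.P (IsLocalRing.residue ↥𝔓.P)
      ((((c : ↥(tbFix 𝔓 H)) : Qb) • g : ↥(modularFunctionFieldBar (N' * 𝔓.p))) :
        LaurentSeries Qb) = 0 := by
  have hc : ((c : ↥(tbFix 𝔓 H)) : Qb) = ((tbFixIncl 𝔓 H ⟨c, hcO⟩ : ↥𝔓.P) : Qb) := rfl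
  rw [tbq_coe_smul, hc, tbRhoFun_mul 𝔓.P _ (tbGauss_C 𝔓.P _ _) hg, tbRhoFun_C, tbFixRes_eq,
    hres0, map_zero, zero_mul]

/-- a function of level `H` which is Gauss for both valuations over `ℚ̄` is so at level `H` -/
theorem s33q_gauss_descend {f : ↥(tbLevF 𝔓 (N' * 𝔓.p) H)}
    (hf : tbPhiF 𝔓 (N' * 𝔓.p) H f ∈ s33qOv 𝔓 N' h) : f ∈ (t2iBase2Fix 𝔓 H N' h).Ov := by
  rcases eq_or_ne f 0 with rfl | hf0
  · exact (t2iBase2Fix 𝔓 H N' h).Ov.zero_mem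
  obtain ⟨c, hc0, hcf, hres⟩ := (t2iBase2Fix 𝔓 H N' h).normalize f hf0
  by_cases hci : c⁻¹ ∈ tbFixO 𝔓 H
  · have h1 := (t2iBase2Fix 𝔓 H N' h).smul_mem ⟨c⁻¹, hci⟩ hcf
    have h2 : (((⟨c⁻¹, hci⟩ : ↥(t2iBase2Fix 𝔓 H N' h).A) : ↥(tbFix 𝔓 H)) • (c • f)) = f := by
      show c⁻¹ • (c • f) = f
      rw [smul_smul, inv_mul_cancel₀ hc0, one_smul]
    rwa [h2] at h1
  · exfalso
    have hcO : c ∈ tbFixO 𝔓 H := ((tbFixO 𝔓 H).mem_or_inv_mem c).resolve_right hci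
    have hres0 : tbFixRes 𝔓 H ⟨c, hcO⟩ = 0 := tbFixRes_eq_zero_of_inv_notMem 𝔓 H hci hcO
    apply hres
    obtain ⟨hf1, hf2⟩ := (mem_s33qOv 𝔓 N' h _).mp hf
    apply Prod.ext
    · apply Subtype.ext
      rw [← s33q_rho_phi_fst 𝔓 N' h H hcf, tbPhiF_smul]
      exact s33q_rho_smul_eq_zero 𝔓 N' H hcO hres0 hf1
    · apply Subtype.ext
      rw [← s33q_rho_phi_snd 𝔓 N' h H hcf, tbPhiF_smul, s33q_t2w_smul]
      exact s33q_rho_smul_eq_zero 𝔓 N' H hcO hres0 hf2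

theorem s33q_phi_mem_iff (f : ↥(tbLevF 𝔓 (N' * 𝔓.p) H)) :
    tbPhiF 𝔓 (N' * 𝔓.p) H f ∈ s33qOv 𝔓 N' h ↔ f ∈ (t2iBase2Fix 𝔓 H N' h).Ov :=
  ⟨s33q_gauss_descend 𝔓 N' h H, s33q_phi_mem 𝔓 N' h H⟩

omit [H.FiniteIndex] in
/-- **choice of the level**: finitely many functions over `ℚ̄` come from a level `H` which is
normal of finite index in the inertia group and contained in a given subgroup of finite index -/
theorem s33q_exists_level (H₁ : Subgroup 𝔓.I) [H₁.FiniteIndex]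
    (T : Finset ↥(modularFunctionFieldBar (N' * 𝔓.p))) :
    ∃ H : Subgroup 𝔓.I, H.FiniteIndex ∧ H.Normal ∧ H ≤ H₁ ∧
      ∀ y ∈ T, ∃ f : ↥(tbLevF 𝔓 (N' * 𝔓.p) H), tbPhiF 𝔓 (N' * 𝔓.p) H f = y :=
  t2gs_exists_level 𝔓 (N' * 𝔓.p) H₁ T

end Fermat.Agent.S33Q
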