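/-
GAMMA-QB (helper9), part 3: **the two-valuation base over `(ℚ̄, A = 𝔓)`**.

`s33qBase 𝔓 N' h : T2Base ℚ̄ F κ (F̄' × F̄')`, `F = ℚ̄(X₀(N' p))`, `F̄' = tbBarF 𝔓 N'`:
`A = 𝔓.P`, `𝒪 = s33qOv` (both Gauss valuations), `res f = (ρ f, ρ (w f))`;
`normalize` and `cart` by descent to the DVR levels `t2iBase2Fix 𝔓 H N' h` (orthonormal bases stay
orthonormal).
-/
import Fermat.Agent.Lib.S33.Qb.Defs
import Fermat.Agent.Lib.S33.Qb.Ortho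

set_option autoImplicit false
set_option linter.unusedSectionVars false
set_option linter.unusedVariables false
set_option linter.style.haveILetI false
set_option synthInstance.maxHeartbeats 400000

open HahnSeries ModularCurve Fermat.Agent.T1 Fermat.Agent.T2 Fermat.Agent.TW Fermat.Agent.S05Lib
  Fermat.Agent.S24Lib

noncomputable section

namespace Fermat.Agent.S33Q

local notation "Qb" => AlgebraicClosure ℚ

attribute [local instance] t2i_dvr t2i_isAlgClosed t2i_charP t2i_fact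

variable (𝔓 : FFPlace) (N' : ℕ) [NeZero N'] (h : ¬ 𝔓.p ∣ N')

/-- every Gauss function comes from a level, where it is Gauss -/
theorem s33q_exists_level_mem {f : ↥(modularFunctionFieldBar (N' * 𝔓.p))}
    (hf : f ∈ s33qOv 𝔓 N' h) :
    ∃ (H : Subgroup 𝔓.I) (_ : H.FiniteIndex) (fH : ↥(tbLevF 𝔓 (N' * 𝔓.p) H)),
      fH ∈ (t2iBase2Fix 𝔓 H N' h).Ov ∧ tbPhiF 𝔓 (N' * 𝔓.p) H fH = f := by
  obtain ⟨H, hH, -, -, hT⟩ := s33q_exists_level 𝔓 N' ⊤ {f}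
  obtain ⟨fH, hfH⟩ := hT f (Finset.mem_singleton_self f)
  haveI := hH
  exact ⟨H, hH, fH, s33q_gauss_descend 𝔓 N' h H (hfH ▸ hf), hfH⟩

theorem s33q_rho_mem_fst {f : ↥(modularFunctionFieldBar (N' * 𝔓.p))} (hf : f ∈ s33qOv 𝔓 N' h) :
    tbRhoFun 𝔓.P (IsLocalRing.residue ↥𝔓.P) (f : LaurentSeries Qb) ∈ tbBarF 𝔓 N' := by
  obtain ⟨H, hH, fH, hfH, rfl⟩ := s33q_exists_level_mem 𝔓 N' h hf
  rw [s33q_rho_phi_fst 𝔓 N' h H hfH]
  exact SetLike.coe_mem _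

theorem s33q_rho_mem_snd {f : ↥(modularFunctionFieldBar (N' * 𝔓.p))} (hf : f ∈ s33qOv 𝔓 N' h) :
    tbRhoFun 𝔓.P (IsLocalRing.residue ↥𝔓.P)
      ((t2w Qb N' 𝔓.p h f : ↥(modularFunctionFieldBar (N' * 𝔓.p))) : LaurentSeries Qb) ∈
      tbBarF 𝔓 N' := by
  obtain ⟨H, hH, fH, hfH, rfl⟩ := s33q_exists_level_mem 𝔓 N' h hf
  rw [s33q_rho_phi_snd 𝔓 N' h H hfH]
  exact SetLike.coe_mem _

/-- the first residue map -/
def s33qRho₁ : ↥(s33qOv 𝔓 N' h) →+* ↥(tbBarF 𝔓 N') where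
  toFun f := ⟨tbRhoFun 𝔓.P (IsLocalRing.residue ↥𝔓.P)
    ((f : ↥(modularFunctionFieldBar (N' * 𝔓.p))) : LaurentSeries Qb), s33q_rho_mem_fst 𝔓 N' h f.2⟩
  map_one' := Subtype.ext (tbRhoFun_one _ _)
  map_zero' := Subtype.ext (tbRhoFun_zero _ _)
  map_mul' f g := Subtype.ext (tbRhoFun_mul _ _ f.2.1 g.2.1)
  map_add' f g := Subtype.ext (tbRhoFun_add _ _ f.2.1 g.2.1)

/-- the second residue map -/
def s33qRho₂ : ↥(s33qOv 𝔓 N' h) →+* ↥(tbBarF 𝔓 N') where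
  toFun f := ⟨tbRhoFun 𝔓.P (IsLocalRing.residue ↥𝔓.P)
    ((t2w Qb N' 𝔓.p h (f : ↥(modularFunctionFieldBar (N' * 𝔓.p))) :
      ↥(modularFunctionFieldBar (N' * 𝔓.p))) : LaurentSeries Qb), s33q_rho_mem_snd 𝔓 N' h f.2⟩
  map_one' := Subtype.ext (by
    show tbRhoFun 𝔓.P _ ((t2w Qb N' 𝔓.p h (1 : ↥(modularFunctionFieldBar (N' * 𝔓.p))) :
      ↥(modularFunctionFieldBar (N' * 𝔓.p))) : LaurentSeries Qb) = _
    rw [map_one]
    exact tbRhoFun_one _ _)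
  map_zero' := Subtype.ext (by
    show tbRhoFun 𝔓.P _ ((t2w Qb N' 𝔓.p h (0 : ↥(modularFunctionFieldBar (N' * 𝔓.p))) :
      ↥(modularFunctionFieldBar (N' * 𝔓.p))) : LaurentSeries Qb) = _
    rw [map_zero]
    exact tbRhoFun_zero _ _)
  map_mul' f g := Subtype.ext (by
    show tbRhoFun 𝔓.P _ ((t2w Qb N' 𝔓.p h ((f : ↥(modularFunctionFieldBar (N' * 𝔓.p))) * g) :
      ↥(modularFunctionFieldBar (N' * 𝔓.p))) : LaurentSeries Qb) = _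
    rw [map_mul]
    exact tbRhoFun_mul _ _ f.2.2 g.2.2)
  map_add' f g := Subtype.ext (by
    show tbRhoFun 𝔓.P _ ((t2w Qb N' 𝔓.p h ((f : ↥(modularFunctionFieldBar (N' * 𝔓.p))) + g) :
      ↥(modularFunctionFieldBar (N' * 𝔓.p))) : LaurentSeries Qb) = _
    rw [map_add]
    exact tbRhoFun_add _ _ f.2.2 g.2.2)

/-- the reduction map `𝒪 → F̄' × F̄'`, `f ↦ (ρ f, ρ (w f))` -/
def s33qRes : ↥(s33qOv 𝔓 N' h) →+* ↥(tbBarF 𝔓 N') × ↥(tbBarF 𝔓 N') :=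
  (s33qRho₁ 𝔓 N' h).prod (s33qRho₂ 𝔓 N' h)

theorem coe_s33qRes_fst (f : ↥(s33qOv 𝔓 N' h)) :
    (((s33qRes 𝔓 N' h f).1 : ↥(tbBarF 𝔓 N')) : LaurentSeries (IsLocalRing.ResidueField ↥𝔓.P)) =
      tbRhoFun 𝔓.P (IsLocalRing.residue ↥𝔓.P)
        ((f : ↥(modularFunctionFieldBar (N' * 𝔓.p))) : LaurentSeries Qb) := rfl

theorem coe_s33qRes_snd (f : ↥(s33qOv 𝔓 N' h)) :
    (((s33qRes 𝔓 N' h f).2 : ↥(tbBarF 𝔓 N')) : LaurentSeries (IsLocalRing.ResidueField ↥𝔓.P)) =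
      tbRhoFun 𝔓.P (IsLocalRing.residue ↥𝔓.P)
        ((t2w Qb N' 𝔓.p h (f : ↥(modularFunctionFieldBar (N' * 𝔓.p))) :
          ↥(modularFunctionFieldBar (N' * 𝔓.p))) : LaurentSeries Qb) := rfl

/-- **compatibility of the reduction maps with the levels** -/
theorem s33qRes_phi (H : Subgroup 𝔓.I) [H.FiniteIndex] {f : ↥(tbLevF 𝔓 (N' * 𝔓.p) H)}
    (hf : f ∈ (t2iBase2Fix 𝔓 H N' h).Ov) :
    s33qRes 𝔓 N' h ⟨tbPhiF 𝔓 (N' * 𝔓.p) H f, s33q_phi_mem 𝔓 N' h H hf⟩ =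
      (t2iBase2Fix 𝔓 H N' h).res ⟨f, hf⟩ := by
  apply Prod.ext
  · apply Subtype.ext
    rw [coe_s33qRes_fst]
    exact s33q_rho_phi_fst 𝔓 N' h H hf
  · apply Subtype.ext
    rw [coe_s33qRes_snd]
    exact s33q_rho_phi_snd 𝔓 N' h H hf


/-! ### Constants -/

theorem s33q_coe_algebraMap (a : Qb) :
    ((algebraMap Qb ↥(modularFunctionFieldBar (N' * 𝔓.p)) a :
      ↥(modularFunctionFieldBar (N' * 𝔓.p))) : LaurentSeries Qb) = HahnSeries.C a := by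
  rw [HahnSeries.C_apply, ← algebraMap_laurentSeries_eq_single]
  rfl

theorem s33q_algebraMap_mem (a : ↥𝔓.P) :
    algebraMap Qb ↥(modularFunctionFieldBar (N' * 𝔓.p)) (a : Qb) ∈ s33qOv 𝔓 N' h := by
  rw [mem_s33qOv, AlgEquiv.commutes, s33q_coe_algebraMap]
  exact ⟨tbGauss_C _ _ a, tbGauss_C _ _ a⟩

theorem s33qRes_algebraMap (a : ↥𝔓.P) :
    s33qRes 𝔓 N' h ⟨algebraMap Qb ↥(modularFunctionFieldBar (N' * 𝔓.p)) (a : Qb),
      s33q_algebraMap_mem 𝔓 N' h a⟩ =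
      algebraMap (IsLocalRing.ResidueField ↥𝔓.P) (↥(tbBarF 𝔓 N') × ↥(tbBarF 𝔓 N'))
        (IsLocalRing.residue ↥𝔓.P a) := by
  have hC : ((algebraMap (IsLocalRing.ResidueField ↥𝔓.P) ↥(tbBarF 𝔓 N')
      (IsLocalRing.residue ↥𝔓.P a) : ↥(tbBarF 𝔓 N')) :
      LaurentSeries (IsLocalRing.ResidueField ↥𝔓.P)) =
      HahnSeries.C (IsLocalRing.residue ↥𝔓.P a) := by
    rw [HahnSeries.C_apply, ← algebraMap_laurentSeries_eq_single]
    rfl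
  apply Prod.ext
  · apply Subtype.ext
    rw [coe_s33qRes_fst]
    show tbRhoFun 𝔓.P _ ((algebraMap Qb ↥(modularFunctionFieldBar (N' * 𝔓.p)) (a : Qb) :
      ↥(modularFunctionFieldBar (N' * 𝔓.p))) : LaurentSeries Qb) = _
    rw [s33q_coe_algebraMap, tbRhoFun_C]
    exact hC.symm
  · apply Subtype.ext
    rw [coe_s33qRes_snd]
    show tbRhoFun 𝔓.P _ ((t2w Qb N' 𝔓.p h
      (algebraMap Qb ↥(modularFunctionFieldBar (N' * 𝔓.p)) (a : Qb)) :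
      ↥(modularFunctionFieldBar (N' * 𝔓.p))) : LaurentSeries Qb) = _
    rw [AlgEquiv.commutes, s33q_coe_algebraMap, tbRhoFun_C]
    exact hC.symm

/-! ### Normalisation -/

theorem s33q_normalize (f : ↥(modularFunctionFieldBar (N' * 𝔓.p))) (hf0 : f ≠ 0) :
    ∃ c : Qb, c ≠ 0 ∧ ∃ hm : c • f ∈ s33qOv 𝔓 N' h, s33qRes 𝔓 N' h ⟨c • f, hm⟩ ≠ 0 := by
  obtain ⟨H, hH, -, -, hT⟩ := s33q_exists_level 𝔓 N' ⊤ {f}
  obtain ⟨fH, hfH⟩ := hT f (Finset.mem_singleton_self f)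
  haveI := hH
  have hfH0 : fH ≠ 0 := by
    rintro rfl
    rw [map_zero] at hfH
    exact hf0 hfH.symm
  obtain ⟨c, hc0, hcf, hres⟩ := (t2iBase2Fix 𝔓 H N' h).normalize fH hfH0
  have hc0' : ((c : ↥(tbFix 𝔓 H)) : Qb) ≠ 0 := fun h0 => hc0 (Subtype.ext h0)
  have heq : ((c : ↥(tbFix 𝔓 H)) : Qb) • f = tbPhiF 𝔓 (N' * 𝔓.p) H (c • fH) := by
    rw [tbPhiF_smul, hfH]
  have hm : ((c : ↥(tbFix 𝔓 H)) : Qb) • f ∈ s33qOv 𝔓 N' h := by
    rw [heq]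
    exact s33q_phi_mem 𝔓 N' h H hcf
  refine ⟨(c : Qb), hc0', hm, ?_⟩
  have h1 : (⟨((c : ↥(tbFix 𝔓 H)) : Qb) • f, hm⟩ : ↥(s33qOv 𝔓 N' h)) =
      ⟨tbPhiF 𝔓 (N' * 𝔓.p) H (c • fH), s33q_phi_mem 𝔓 N' h H hcf⟩ := Subtype.ext heq
  rw [h1, s33qRes_phi]
  exact hres


/-! ### Orthonormal bases coming from a level, and (Cart) -/

/-- **orthonormal bases from a level**: a finite-dimensional subspace `W` of `F` has a basis
`Φ_H (b i)` with `b i` Gauss at level `H` and linearly independent reductions; the level can be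
chosen normal, of finite index, and inside a given subgroup of finite index -/
theorem s33q_exists_basis (W : Submodule Qb ↥(modularFunctionFieldBar (N' * 𝔓.p)))
    [FiniteDimensional Qb ↥W] (H₁ : Subgroup 𝔓.I) [H₁.FiniteIndex] :
    ∃ (H : Subgroup 𝔓.I) (_ : H.FiniteIndex) (_ : H.Normal) (_ : H ≤ H₁) (r : ℕ)
      (b : Fin r → ↥(tbLevF 𝔓 (N' * 𝔓.p) H)) (hb : ∀ i, b i ∈ (t2iBase2Fix 𝔓 H N' h).Ov),
      LinearIndependent (IsLocalRing.ResidueField ↥𝔓.P)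
        (fun i => (t2iBase2Fix 𝔓 H N' h).res ⟨b i, hb i⟩) ∧
      Submodule.span Qb (Set.range fun i => tbPhiF 𝔓 (N' * 𝔓.p) H (b i)) = W := by
  classical
  set wb := Module.finBasis Qb ↥W with hwb
  set n0 := Module.finrank Qb ↥W with hn0
  obtain ⟨H, hH, hHn, hH1, hT⟩ := s33q_exists_level 𝔓 N' H₁
    (Finset.univ.image fun i : Fin n0 => ((wb i : ↥W) : ↥(modularFunctionFieldBar (N' * 𝔓.p))))
  haveI := hH
  choose wH hwH using fun i : Fin n0 =>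
    hT _ (Finset.mem_image_of_mem
      (fun i : Fin n0 => ((wb i : ↥W) : ↥(modularFunctionFieldBar (N' * 𝔓.p))))
      (Finset.mem_univ i))
  set WH : Submodule ↥(tbFix 𝔓 H) ↥(tbLevF 𝔓 (N' * 𝔓.p) H) :=
    Submodule.span ↥(tbFix 𝔓 H) (Set.range wH) with hWH
  haveI : FiniteDimensional ↥(tbFix 𝔓 H) ↥WH :=
    FiniteDimensional.span_of_finite _ (Set.finite_range wH)
  obtain ⟨r, b, hb, hind, hspan⟩ := s33q_exists_orthonormal (t2iBase2Fix 𝔓 H N' h) WH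
  refine ⟨H, hH, hHn, hH1, r, b, fun i => (hb i).2, hind, ?_⟩
  apply le_antisymm
  · rw [Submodule.span_le]
    rintro _ ⟨i, rfl⟩
    have h1 : b i ∈ Submodule.span ↥(tbFix 𝔓 H) (Set.range wH) := (hb i).1
    have h2 := tbPhiF_mem_span 𝔓 (N' * 𝔓.p) H wH h1
    refine (Submodule.span_le.mpr ?_) h2
    rintro _ ⟨j, rfl⟩
    show tbPhiF 𝔓 (N' * 𝔓.p) H (wH j) ∈ W
    rw [hwH]
    exact (wb j).2
  · intro f hf
    have h1 : (⟨f, hf⟩ : ↥W) = ∑ i, wb.repr ⟨f, hf⟩ i • wb i := (wb.sum_repr ⟨f, hf⟩).symm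
    have h2 : f = ∑ i, wb.repr ⟨f, hf⟩ i •
        ((wb i : ↥W) : ↥(modularFunctionFieldBar (N' * 𝔓.p))) := by
      have := congrArg (Subtype.val : ↥W → ↥(modularFunctionFieldBar (N' * 𝔓.p))) h1
      rw [AddSubmonoidClass.coe_finsetSum] at this
      exact this
    rw [h2]
    refine Submodule.sum_mem _ fun i _ => Submodule.smul_mem _ _ ?_
    rw [← hwH]
    have h3 : wH i ∈ Submodule.span ↥(tbFix 𝔓 H) (Set.range b) := by
      rw [hspan, hWH]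
      exact Submodule.subset_span ⟨i, rfl⟩
    exact tbPhiF_mem_span 𝔓 (N' * 𝔓.p) H b h3

/-- nonunits of `A` reduce to zero -/
theorem s33q_residue_eq_zero (a : ↥𝔓.P) (ha : ((a : ↥𝔓.P) : Qb)⁻¹ ∉ 𝔓.P) :
    IsLocalRing.residue ↥𝔓.P a = 0 :=
  tbq_residue_eq_zero 𝔓.P a.2 ha

/-- **orthonormality over `(ℚ̄, A)`** for functions coming from a level -/
theorem s33q_coeff_mem (H : Subgroup 𝔓.I) [H.FiniteIndex] {r : ℕ}
    (b : Fin r → ↥(tbLevF 𝔓 (N' * 𝔓.p) H)) (hb : ∀ i, b i ∈ (t2iBase2Fix 𝔓 H N' h).Ov)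
    (hind : LinearIndependent (IsLocalRing.ResidueField ↥𝔓.P)
      (fun i => (t2iBase2Fix 𝔓 H N' h).res ⟨b i, hb i⟩))
    (c : Fin r → Qb) (hf : ∑ i, c i • tbPhiF 𝔓 (N' * 𝔓.p) H (b i) ∈ s33qOv 𝔓 N' h) :
    ∀ i, c i ∈ 𝔓.P := by
  refine s33q_orthonormal 𝔓.P (IsLocalRing.residue ↥𝔓.P) (s33q_residue_eq_zero 𝔓)
    (s33qOv 𝔓 N' h) (s33qRes 𝔓 N' h) (s33q_algebraMap_mem 𝔓 N' h) (s33qRes_algebraMap 𝔓 N' h)
    (fun i => tbPhiF 𝔓 (N' * 𝔓.p) H (b i)) (fun i => s33q_phi_mem 𝔓 N' h H (hb i)) ?_ c hf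
  have : (fun i => s33qRes 𝔓 N' h ⟨tbPhiF 𝔓 (N' * 𝔓.p) H (b i),
      s33q_phi_mem 𝔓 N' h H (hb i)⟩) = fun i => (t2iBase2Fix 𝔓 H N' h).res ⟨b i, hb i⟩ :=
    funext fun i => s33qRes_phi 𝔓 N' h H (hb i)
  rw [this]
  exact hind

/-- **(Cart) over `(ℚ̄, A)`** -/
theorem s33q_cart (W : Submodule Qb ↥(modularFunctionFieldBar (N' * 𝔓.p)))
    [FiniteDimensional Qb ↥W] :
    ∃ S : Finset ↥(modularFunctionFieldBar (N' * 𝔓.p)),
      (∀ s ∈ S, s ∈ W ∧ s ∈ s33qOv 𝔓 N' h) ∧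
      ∀ f ∈ W, f ∈ s33qOv 𝔓 N' h →
        ∃ c : ↥(modularFunctionFieldBar (N' * 𝔓.p)) → ↥𝔓.P,
          f = ∑ s ∈ S, ((c s : ↥𝔓.P) : Qb) • s := by
  classical
  obtain ⟨H, hH, -, -, r, b, hb, hind, hspan⟩ := s33q_exists_basis 𝔓 N' h W ⊤
  haveI := hH
  set B : Fin r → ↥(modularFunctionFieldBar (N' * 𝔓.p)) :=
    fun i => tbPhiF 𝔓 (N' * 𝔓.p) H (b i) with hB
  have hBW : ∀ i, B i ∈ W := fun i => hspan ▸ Submodule.subset_span ⟨i, rfl⟩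
  have hBO : ∀ i, B i ∈ s33qOv 𝔓 N' h := fun i => s33q_phi_mem 𝔓 N' h H (hb i)
  have hBinj : Function.Injective B := by
    intro i j hij
    apply hind.injective
    show (t2iBase2Fix 𝔓 H N' h).res ⟨b i, hb i⟩ = (t2iBase2Fix 𝔓 H N' h).res ⟨b j, hb j⟩
    congr 1
    exact Subtype.ext (tbPhiF_injective 𝔓 (N' * 𝔓.p) H hij)
  refine ⟨Finset.univ.image B, ?_, ?_⟩
  · intro s hs
    obtain ⟨i, -, rfl⟩ := Finset.mem_image.mp hs
    exact ⟨hBW i, hBO i⟩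
  · intro f hfW hfO
    have hfs : f ∈ Submodule.span Qb (Set.range B) := hspan ▸ hfW
    obtain ⟨c, hc⟩ := (Submodule.mem_span_range_iff_exists_fun Qb).mp hfs
    have hcA : ∀ i, c i ∈ 𝔓.P := s33q_coeff_mem 𝔓 N' h H b hb hind c (hc ▸ hfO)
    set ct : ↥(modularFunctionFieldBar (N' * 𝔓.p)) → ↥𝔓.P :=
      fun s => if hs : ∃ i, B i = s then ⟨c hs.choose, hcA _⟩ else 0 with hct
    have hctB : ∀ i, ct (B i) = ⟨c i, hcA i⟩ := by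
      intro i
      have hex : ∃ j, B j = B i := ⟨i, rfl⟩
      have h1 : ct (B i) = ⟨c hex.choose, hcA _⟩ := dif_pos hex
      have h2 : hex.choose = i := hBinj hex.choose_spec
      rw [h1]
      exact Subtype.ext (congrArg c h2)
    refine ⟨ct, ?_⟩
    rw [Finset.sum_image (fun i _ j _ hij => hBinj hij), ← hc]
    refine Finset.sum_congr rfl fun i _ => ?_
    rw [hctB i]

/-- **the two-valuation base over `(ℚ̄, A = 𝔓)`** -/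
def s33qBase : T2Base Qb ↥(modularFunctionFieldBar (N' * 𝔓.p)) (IsLocalRing.ResidueField ↥𝔓.P)
    (↥(tbBarF 𝔓 N') × ↥(tbBarF 𝔓 N')) where
  A := 𝔓.P
  resA := IsLocalRing.residue ↥𝔓.P
  resA_surj := IsLocalRing.residue_surjective
  Ov := s33qOv 𝔓 N' h
  res := s33qRes 𝔓 N' h
  algebraMap_mem := s33q_algebraMap_mem 𝔓 N' h
  res_algebraMap := s33qRes_algebraMap 𝔓 N' h
  normalize := s33q_normalize 𝔓 N' h
  arch := tb_arch 𝔓
  cart := fun W hW => by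
    haveI := hW
    exact s33q_cart 𝔓 N' h W

theorem s33qBase_A : (s33qBase 𝔓 N' h).A = 𝔓.P := rfl

theorem s33qBase_resA : (s33qBase 𝔓 N' h).resA = IsLocalRing.residue ↥𝔓.P := rfl

theorem s33qBase_Ov : (s33qBase 𝔓 N' h).Ov = s33qOv 𝔓 N' h := rfl

theorem s33qBase_res : (s33qBase 𝔓 N' h).res = s33qRes 𝔓 N' h := rfl

end Fermat.Agent.S33Q
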