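/-
GAMMA-QB (helper9), part 4: units of the Gauss ring of the two valuations.

`s33q_inv_mem` : an element of `𝒪` whose reduction is a unit of `F̄' × F̄'` (i.e. both components are
nonzero) is a unit of `𝒪` (each Gauss ring is a valuation ring).
-/
import Fermat.Agent.Lib.S33.Qb.Base

set_option autoImplicit false
set_option linter.unusedSectionVars false
set_option linter.unusedVariables false
set_option linter.style.haveILetI false
set_option synthInstance.maxHeartbeats 400000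

open HahnSeries ModularCurve Fermat.Agent.T1 Fermat.Agent.T2 Fermat.Agent.TW Fermat.Agent.S05Lib
  Fermat.Agent.S24Lib

noncomputable section

namespace Fermat.Agent.S33Q

local notation "Qb" => AlgebraicClosure ℚ

attribute [local instance] t2i_dvr t2i_isAlgClosed t2i_charP t2i_fact

variable (𝔓 : FFPlace) (N' : ℕ) [NeZero N'] (h : ¬ 𝔓.p ∣ N')

/-- an element of `𝒪` with both residues nonzero is a unit of `𝒪` -/
theorem s33q_inv_mem_of_ne {f : ↥(modularFunctionFieldBar (N' * 𝔓.p))}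
    (hf : f ∈ s33qOv 𝔓 N' h) (h1 : (s33qRes 𝔓 N' h ⟨f, hf⟩).1 ≠ 0)
    (h2 : (s33qRes 𝔓 N' h ⟨f, hf⟩).2 ≠ 0) : f⁻¹ ∈ s33qOv 𝔓 N' h := by
  obtain ⟨hf1, hf2⟩ := (mem_s33qOv 𝔓 N' h f).mp hf
  rw [mem_s33qOv]
  refine ⟨?_, ?_⟩
  · show TbGauss 𝔓.P _ ((f : LaurentSeries Qb))⁻¹
    refine tbGauss_inv 𝔓.P _ hf1 (fun h0 => h1 (Subtype.ext ?_))
    rw [coe_s33qRes_fst]
    exact h0
  · rw [map_inv₀]
    show TbGauss 𝔓.P _
      (((t2w Qb N' 𝔓.p h f : ↥(modularFunctionFieldBar (N' * 𝔓.p))) : LaurentSeries Qb))⁻¹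
    refine tbGauss_inv 𝔓.P _ hf2 (fun h0 => h2 (Subtype.ext ?_))
    rw [coe_s33qRes_snd]
    exact h0

/-- **units**: an element of `𝒪` whose reduction is a unit is a unit of `𝒪` -/
theorem s33q_inv_mem (f : ↥(modularFunctionFieldBar (N' * 𝔓.p)))
    (hf : f ∈ (s33qBase 𝔓 N' h).Ov) (hu : IsUnit ((s33qBase 𝔓 N' h).res ⟨f, hf⟩)) :
    f⁻¹ ∈ (s33qBase 𝔓 N' h).Ov := by
  have hu' : IsUnit (s33qRes 𝔓 N' h ⟨f, hf⟩) := hu
  rw [Prod.isUnit_iff] at hu'
  exact s33q_inv_mem_of_ne 𝔓 N' h hf hu'.1.ne_zero hu'.2.ne_zero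

end Fermat.Agent.S33Q
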