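/-
GAMMA-QB (helper9), part 6: **the `ℚ̄`-level `T2Setup`** on `s33qBase 𝔓 N' h` for the symmetric
chart `x = x' · w(x')`, `x' = j^(p²) - j`.

All fields come from the DVR level `H = ⊤` through `S33qLevel.setup` (`Qb/Transfer.lean`), except
(Int) on the two charts (every function comes from SOME level) and Riemann–Roch over `ℚ̄`.

* `s33qX` : the chart; `s33qX_gen`; `s33q_phi_X`;
* `s33qLev 𝔓 N' h H : S33qLevel (t2iBase2Fix 𝔓 H N' h) (s33qBase 𝔓 N' h)`;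
* `s33q_exists_setup` : the setup, with `su.x = s33qX`, `su.ℓ = 𝔓.p`, `su.n = [F : ℚ̄(x)]`,
  `su.c = 1 - g`, `su.xb = (ξ, ξ)`, `ξ = (j̄^(p²) - j̄)^(p+1)`.
-/
import Fermat.Agent.Lib.S33.Qb.Transfer
import Fermat.Agent.Lib.S33.Qb.Unit
import Fermat.Agent.Lib.T2.Inst.ExportH

set_option autoImplicit false
set_option linter.unusedSectionVars false
set_option linter.unusedVariables false
set_option linter.style.haveILetI false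
set_option synthInstance.maxHeartbeats 400000
set_option maxHeartbeats 1000000

open HahnSeries ModularCurve Fermat.Agent.T1 Fermat.Agent.T2 Fermat.Agent.TW Fermat.Agent.S05Lib
  Fermat.Agent.S24Lib IntermediateField AlgebraicCurve Fermat.Agent.Curve Module

noncomputable section

namespace Fermat.Agent.S33Q

local notation "Qb" => AlgebraicClosure ℚ

attribute [local instance] t2i_dvr t2i_isAlgClosed t2i_charP t2i_fact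

variable (𝔓 : FFPlace) (N' : ℕ) [NeZero N'] (h : ¬ 𝔓.p ∣ N')

/-- the symmetric chart `x' · w(x')`, `x' = j^(p²) - j`, over `ℚ̄` -/
def s33qX : ↥(modularFunctionFieldBar (N' * 𝔓.p)) :=
  (tbJ (N' * 𝔓.p) ^ (𝔓.p ^ 2) - tbJ (N' * 𝔓.p)) *
    t2w Qb N' 𝔓.p h (tbJ (N' * 𝔓.p) ^ (𝔓.p ^ 2) - tbJ (N' * 𝔓.p))

/-- the symmetric chart is a generator -/
theorem s33qX_gen : IsFunctionFieldGen Qb ↥(modularFunctionFieldBar (N' * 𝔓.p)) (s33qX 𝔓 N' h) :=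
  t2dg_isFunctionFieldGen_chart_al N' 𝔓.p h (t2ca_two_le 𝔓.p)

/-- the symmetric chart comes from every level -/
theorem s33q_phi_X (H : Subgroup 𝔓.I) [H.FiniteIndex] :
    tbPhiF 𝔓 (N' * 𝔓.p) H (t2gaX 𝔓 H N' h (𝔓.p ^ 2)) = s33qX 𝔓 N' h :=
  t2dg_tbPhiF_chart N' 𝔓.p h (t2ca_two_le 𝔓.p) 𝔓 H

/-- **the level `H`** -/
def s33qLev (H : Subgroup 𝔓.I) [H.FiniteIndex] :
    S33qLevel (t2iBase2Fix 𝔓 H N' h) (s33qBase 𝔓 N' h) where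
  j := algebraMap ↥(tbFix 𝔓 H) Qb
  Φ := tbPhiF 𝔓 (N' * 𝔓.p) H
  Φ_smul := tbPhiF_smul 𝔓 (N' * 𝔓.p) H
  mapA := fun a ha => (tbFixIncl 𝔓 H ⟨a, ha⟩).2
  resA := fun a ha => rfl
  mapOv := fun f hf => s33q_phi_mem 𝔓 N' h H hf
  res := fun f hf => s33qRes_phi 𝔓 N' h H hf
  int := t2d_isIntegral_tbPhiF_iff 𝔓 (N' * 𝔓.p) H

theorem s33qLev_Φ (H : Subgroup 𝔓.I) [H.FiniteIndex] :
    (s33qLev 𝔓 N' h H).Φ = tbPhiF 𝔓 (N' * 𝔓.p) H := rfl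

/-- `ξ = (j̄^(p²) - j̄)^(p+1)`, the reduction of the symmetric chart on each component -/
def s33qXi : ↥(tbBarF 𝔓 N') := t2iXb (IsLocalRing.ResidueField ↥𝔓.P) N' 𝔓.p ^ (𝔓.p + 1)

section Main

variable (h49 : 4 ∣ N' ∨ 9 ∣ N')

include h49 in
/-- the setups at the DVR levels, with the chart and its reduction -/
theorem s33q_exists_setup_level (H : Subgroup 𝔓.I) [H.FiniteIndex] :
    ∃ (n : ℕ) (su : T2Setup (t2iBase2Fix 𝔓 H N' h) (Fin n)),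
      su.x = t2gaX 𝔓 H N' h (𝔓.p ^ 2) ∧ su.xb = (s33qXi 𝔓 N', s33qXi 𝔓 N') := by
  obtain ⟨n, su, -, hx, -, -⟩ := t2i_exists_setup_fix 𝔓 H N' h (t2i_leafGR 𝔓 H N' h h49)
    (t2i_leafSF 𝔓 N' h) 1 (Nat.coprime_one_left _)
  refine ⟨n, su, hx, ?_⟩
  have hx' : su.x = t2iXs (t2iALFix 𝔓 H N' h) := hx
  unfold T2Setup.xb
  rw [(t2iBase2Fix 𝔓 H N' h).res_congr su.hx hx']
  exact t2i_res_Xs (tbFixO 𝔓 H) (tbFixRes 𝔓 H) (tbFixRes_surjective 𝔓 H)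
    (t2i_natCast_ne_zero 𝔓 h) (t2iALFix 𝔓 H N' h) (t2iFrobFix 𝔓 N')

include h49 in
/-- **(Int) on the chart `x` over `ℚ̄`** -/
theorem s33q_int1 {n : ℕ} (su₀ : T2Setup (t2iBase2Fix 𝔓 ⊤ N' h) (Fin n))
    (hxb₀ : su₀.xb = (s33qXi 𝔓 N', s33qXi 𝔓 N'))
    (f : ↥(modularFunctionFieldBar (N' * 𝔓.p))) (hf : f ∈ (s33qBase 𝔓 N' h).Ov)
    (hfi : f ∈ t2Int (K := Qb) (s33qX 𝔓 N' h)) :
    IsIntegral ↥(Algebra.adjoin (IsLocalRing.ResidueField ↥𝔓.P) {su₀.xb})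
      ((s33qBase 𝔓 N' h).res ⟨f, hf⟩) := by
  obtain ⟨H, hH, fH, hfH, rfl⟩ := s33q_exists_level_mem 𝔓 N' h hf
  haveI := hH
  obtain ⟨nH, suH, hxH, hxbH⟩ := s33q_exists_setup_level 𝔓 N' h h49 H
  rw [← s33q_phi_X 𝔓 N' h H, ← hxH] at hfi
  have h1 : fH ∈ t2Int (K := ↥(tbFix 𝔓 H)) suH.x :=
    (t2d_isIntegral_tbPhiF_iff 𝔓 (N' * 𝔓.p) H suH.x fH).mpr hfi
  have h2 := suH.int1 fH hfH h1
  have h3 : (t2iBase2Fix 𝔓 H N' h).res ⟨suH.x, suH.hx⟩ = su₀.xb := by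
    show suH.xb = su₀.xb
    rw [hxbH, hxb₀]
  have h4 : (s33qBase 𝔓 N' h).res ⟨tbPhiF 𝔓 (N' * 𝔓.p) H fH, hf⟩ =
      (t2iBase2Fix 𝔓 H N' h).res ⟨fH, hfH⟩ := s33qRes_phi 𝔓 N' h H hfH
  rw [h4]
  exact S33qLevel.isIntegral_adjoin_of_eq h3 h2

include h49 in
/-- **(Int) on the chart `x⁻¹` over `ℚ̄`** -/
theorem s33q_int2 {n : ℕ} (su₀ : T2Setup (t2iBase2Fix 𝔓 ⊤ N' h) (Fin n))
    (hxb₀ : su₀.xb = (s33qXi 𝔓 N', s33qXi 𝔓 N'))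
    (f : ↥(modularFunctionFieldBar (N' * 𝔓.p))) (hf : f ∈ (s33qBase 𝔓 N' h).Ov)
    (hfi : f ∈ t2Int (K := Qb) (s33qX 𝔓 N' h)⁻¹) :
    IsIntegral ↥(Algebra.adjoin (IsLocalRing.ResidueField ↥𝔓.P) {su₀.xib})
      ((s33qBase 𝔓 N' h).res ⟨f, hf⟩) := by
  obtain ⟨H, hH, fH, hfH, rfl⟩ := s33q_exists_level_mem 𝔓 N' h hf
  haveI := hH
  obtain ⟨nH, suH, hxH, hxbH⟩ := s33q_exists_setup_level 𝔓 N' h h49 H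
  rw [← s33q_phi_X 𝔓 N' h H, ← hxH, ← map_inv₀] at hfi
  have h1 : fH ∈ t2Int (K := ↥(tbFix 𝔓 H)) suH.x⁻¹ :=
    (t2d_isIntegral_tbPhiF_iff 𝔓 (N' * 𝔓.p) H suH.x⁻¹ fH).mpr hfi
  have h2 := suH.int2 fH hfH h1
  have h3 : (t2iBase2Fix 𝔓 H N' h).res ⟨suH.x⁻¹, suH.hxi⟩ = su₀.xib := by
    show suH.xib = su₀.xib
    have e1 : suH.xb * suH.xib = 1 := suH.xb_mul_xib
    have e2 : suH.xb * su₀.xib = 1 := by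
      rw [hxbH, ← hxb₀]
      exact su₀.xb_mul_xib
    exact inv_unique e1 e2
  have h4 : (s33qBase 𝔓 N' h).res ⟨tbPhiF 𝔓 (N' * 𝔓.p) H fH, hf⟩ =
      (t2iBase2Fix 𝔓 H N' h).res ⟨fH, hfH⟩ := s33qRes_phi 𝔓 N' h H hfH
  rw [h4]
  exact S33qLevel.isIntegral_adjoin_of_eq h3 h2

section Top

variable {n : ℕ} (su₀ : T2Setup (t2iBase2Fix 𝔓 ⊤ N' h) (Fin n))
  (hx₀ : su₀.x = t2gaX 𝔓 ⊤ N' h (𝔓.p ^ 2))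

include hx₀

theorem s33q_phi_x₀ : tbPhiF 𝔓 (N' * 𝔓.p) ⊤ su₀.x = s33qX 𝔓 N' h := by
  rw [hx₀]
  exact s33q_phi_X 𝔓 N' h ⊤

theorem s33q_gen_x₀ : IsFunctionFieldGen Qb ↥(modularFunctionFieldBar (N' * 𝔓.p))
    (tbPhiF 𝔓 (N' * 𝔓.p) ⊤ su₀.x) := by
  rw [s33q_phi_x₀ 𝔓 N' h su₀ hx₀]
  exact s33qX_gen 𝔓 N' h

theorem s33q_sep_x₀ : Algebra.IsSeparable ↥Qb⟮tbPhiF 𝔓 (N' * 𝔓.p) ⊤ su₀.x⟯
    ↥(modularFunctionFieldBar (N' * 𝔓.p)) := by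
  haveI := (s33q_gen_x₀ 𝔓 N' h su₀ hx₀).finite
  haveI : CharZero ↥Qb⟮tbPhiF 𝔓 (N' * 𝔓.p) ⊤ su₀.x⟯ :=
    charZero_of_injective_algebraMap
      (algebraMap Qb ↥Qb⟮tbPhiF 𝔓 (N' * 𝔓.p) ⊤ su₀.x⟯).injective
  infer_instance

theorem s33q_hfd₀ (a : ℕ) : FiniteDimensional ↥(tbFix 𝔓 ⊤)
    ↥(tbLbar (K := ↥(tbFix 𝔓 ⊤)) su₀.x a 0) :=
  t2d_finiteDimensional_tbLbar_mod 𝔓 (N' * 𝔓.p) ⊤ (s33q_gen_x₀ 𝔓 N' h su₀ hx₀) a 0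

theorem s33q_finL0 (a b : ℕ) : FiniteDimensional Qb
    ↥(tbLbar (K := Qb) (tbPhiF 𝔓 (N' * 𝔓.p) ⊤ su₀.x) a b) := by
  haveI := s33q_sep_x₀ 𝔓 N' h su₀ hx₀
  exact tw_finiteDimensional_tbLbar (s33q_gen_x₀ 𝔓 N' h su₀ hx₀) a b

theorem s33q_hdim (a : ℕ) :
    finrank Qb ↥(tbLbar (K := Qb) (tbPhiF 𝔓 (N' * 𝔓.p) ⊤ su₀.x) a 0) ≤
      finrank ↥(tbFix 𝔓 ⊤) ↥(tbLbar (K := ↥(tbFix 𝔓 ⊤)) su₀.x a 0) := by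
  haveI : FiniteDimensional Qb ↥(tbLbar (K := Qb)
      ((t2dLevel 𝔓 ⊤ (modularFunctionFieldFull (N' * 𝔓.p))).bc su₀.x) a 0) :=
    s33q_finL0 𝔓 N' h su₀ hx₀ a 0
  exact ((t2dLevel 𝔓 ⊤ (modularFunctionFieldFull (N' * 𝔓.p))).finrank_tbLbar su₀.x a 0).2.ge

theorem s33q_dim0 (a b : ℕ)
    (hab : 2 * CurveP.genusR Qb ↥(modularFunctionFieldBar (N' * 𝔓.p)) ≤ a + b) :
    (finrank Qb ↥(tbLbar (K := Qb) (tbPhiF 𝔓 (N' * 𝔓.p) ⊤ su₀.x) a b) : ℤ) =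
      ((a + b : ℕ) : ℤ) * (finrank ↥Qb⟮tbPhiF 𝔓 (N' * 𝔓.p) ⊤ su₀.x⟯
        ↥(modularFunctionFieldBar (N' * 𝔓.p)) : ℕ) +
        (1 - CurveP.genusR Qb ↥(modularFunctionFieldBar (N' * 𝔓.p))) := by
  have hX := s33q_gen_x₀ 𝔓 N' h su₀ hx₀
  haveI := s33q_sep_x₀ 𝔓 N' h su₀ hx₀
  have hnpos : 0 < finrank ↥Qb⟮tbPhiF 𝔓 (N' * 𝔓.p) ⊤ su₀.x⟯
      ↥(modularFunctionFieldBar (N' * 𝔓.p)) := by
    haveI := hX.finite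
    exact Module.finrank_pos
  refine tw_finrank_tbLbar hX a b ?_
  have h1 : (1 : ℤ) ≤ (finrank ↥Qb⟮tbPhiF 𝔓 (N' * 𝔓.p) ⊤ su₀.x⟯
      ↥(modularFunctionFieldBar (N' * 𝔓.p)) : ℤ) := by exact_mod_cast hnpos
  have h2 : (2 * CurveP.genusR Qb ↥(modularFunctionFieldBar (N' * 𝔓.p)) : ℤ) ≤
      ((a + b : ℕ) : ℤ) := by exact_mod_cast hab
  nlinarith [Int.natCast_nonneg (a + b)]

end Top

include h49 in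
/-- **the `ℚ̄`-level setup** on the two-valuation base, for the symmetric chart -/
theorem s33q_exists_setup :
    ∃ (n : ℕ) (su : T2Setup (s33qBase 𝔓 N' h) (Fin n)), su.x = s33qX 𝔓 N' h ∧ su.ℓ = 𝔓.p ∧
      (su.n : ℤ) = finrank ↥Qb⟮s33qX 𝔓 N' h⟯ ↥(modularFunctionFieldBar (N' * 𝔓.p)) ∧
      su.c = 1 - CurveP.genusR Qb ↥(modularFunctionFieldBar (N' * 𝔓.p)) ∧
      su.xb = (s33qXi 𝔓 N', s33qXi 𝔓 N') := by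
  obtain ⟨n, su₀, hx₀, hxb₀⟩ := s33q_exists_setup_level 𝔓 N' h h49 ⊤
  have hΦx : tbPhiF 𝔓 (N' * 𝔓.p) ⊤ su₀.x = s33qX 𝔓 N' h := s33q_phi_x₀ 𝔓 N' h su₀ hx₀
  have hint1 : ∀ (f : ↥(modularFunctionFieldBar (N' * 𝔓.p))) (hf : f ∈ (s33qBase 𝔓 N' h).Ov),
      f ∈ t2Int (K := Qb) ((s33qLev 𝔓 N' h ⊤).Φ su₀.x) →
      IsIntegral ↥(Algebra.adjoin (IsLocalRing.ResidueField ↥𝔓.P) {su₀.xb})
        ((s33qBase 𝔓 N' h).res ⟨f, hf⟩) := by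
    intro f hf hfi
    rw [s33qLev_Φ, hΦx] at hfi
    exact s33q_int1 𝔓 N' h h49 su₀ hxb₀ f hf hfi
  have hint2 : ∀ (f : ↥(modularFunctionFieldBar (N' * 𝔓.p))) (hf : f ∈ (s33qBase 𝔓 N' h).Ov),
      f ∈ t2Int (K := Qb) ((s33qLev 𝔓 N' h ⊤).Φ su₀.x)⁻¹ →
      IsIntegral ↥(Algebra.adjoin (IsLocalRing.ResidueField ↥𝔓.P) {su₀.xib})
        ((s33qBase 𝔓 N' h).res ⟨f, hf⟩) := by
    intro f hf hfi
    rw [s33qLev_Φ, hΦx] at hfi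
    exact s33q_int2 𝔓 N' h h49 su₀ hxb₀ f hf hfi
  refine ⟨n, (s33qLev 𝔓 N' h ⊤).setup su₀ 𝔓.p 𝔓.hp 𝔓.hP (Nat.cast_ne_zero.mpr 𝔓.hp.ne_zero)
    hint1 hint2 (s33q_hfd₀ 𝔓 N' h su₀ hx₀) (s33q_hdim 𝔓 N' h su₀ hx₀)
    (finrank ↥Qb⟮tbPhiF 𝔓 (N' * 𝔓.p) ⊤ su₀.x⟯ ↥(modularFunctionFieldBar (N' * 𝔓.p)))
    (1 - CurveP.genusR Qb ↥(modularFunctionFieldBar (N' * 𝔓.p)))
    (2 * CurveP.genusR Qb ↥(modularFunctionFieldBar (N' * 𝔓.p)))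
    (s33q_finL0 𝔓 N' h su₀ hx₀) (s33q_dim0 𝔓 N' h su₀ hx₀), hΦx, rfl, ?_, rfl, ?_⟩
  · show ((finrank ↥Qb⟮tbPhiF 𝔓 (N' * 𝔓.p) ⊤ su₀.x⟯
        ↥(modularFunctionFieldBar (N' * 𝔓.p)) : ℕ) : ℤ) = _
    rw [hΦx]
  · exact ((s33qLev 𝔓 N' h ⊤).setup_xb su₀ _ _ _ _ _ _ _ _ _ _ _ _ _).trans hxb₀

end Main

end Fermat.Agent.S33Q
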